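import Fermat.Agent.S37.H808.TameCore

/-!
# S37 / R-b MODEL, leaf M-b (helper808): tame discriminant bound for a local integral basis

Mathlib + landed `S18/H274/Tame.lean` only.

`Λ` a PID containing `ℚ` with fraction field `Q`, `t` a prime element, `F / Q` a finite extension,
`C₀ = integralClosure Λ F`.  Let `b` be a `Q`-basis of `F` consisting of integral elements which
is a *local integral basis at `t`*: every integral `f` has `g • f ∈ span_Λ b` for some `g ∉ (t)`.
If `d ∈ Λ` is the discriminant of `b` and `s` is a finite set of maximal ideals of `C₀` containing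
`t`, then `ord_t d ≤ [F : Q] - #s`:

* `not_pow_dvd_of_discr_eq` : `¬ t ^ (Fintype.card ι - s.card + 1) ∣ d`.
-/

set_option autoImplicit false
set_option linter.overlappingInstances false
set_option linter.style.haveILetI false
set_option linter.unusedSectionVars false

noncomputable section

namespace Fermat.Agent.S37.H808

open Module Matrix

section LocalBasis

variable {Λ : Type*} [CommRing Λ] [IsDomain Λ] [IsPrincipalIdealRing Λ] [Algebra ℚ Λ]
variable {Q F : Type*} [Field Q] [Field F] [Algebra Λ Q] [IsFractionRing Λ Q] [Algebra Q F]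
  [Algebra Λ F] [IsScalarTower Λ Q F] [FiniteDimensional Q F]

/-- **Tame discriminant bound for a local integral basis.** -/
theorem not_pow_dvd_of_discr_eq (t : Λ) (ht : Prime t) {ι : Type*} [Fintype ι] [DecidableEq ι]
    (b : Basis ι Q F) (hint : ∀ i, IsIntegral Λ (b i))
    (hspan : ∀ f : F, IsIntegral Λ f →
      ∃ g : Λ, ¬ t ∣ g ∧ g • f ∈ Submodule.span Λ (Set.range b))
    (d : Λ) (hd : algebraMap Λ Q d = Algebra.discr Q b)
    (s : Finset (Ideal (integralClosure Λ F)))
    (hs : ∀ M ∈ s, M.IsMaximal ∧ algebraMap Λ (integralClosure Λ F) t ∈ M) :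
    ¬ t ^ (Fintype.card ι - s.card + 1) ∣ d := by
  classical
  haveI : CharZero Λ := algebraRat.charZero Λ
  haveI : CharZero Q := (algebraMap Λ Q).charZero_iff (IsFractionRing.injective Λ Q) |>.mp ‹_›
  haveI : Algebra.IsSeparable Q F := inferInstance
  haveI : FaithfulSMul Λ F := by
    rw [faithfulSMul_iff_algebraMap_injective, IsScalarTower.algebraMap_eq Λ Q F]
    exact (algebraMap Q F).injective.comp (IsFractionRing.injective Λ Q)
  haveI : Module.IsTorsionFree Λ F := inferInstance
  haveI : IsDedekindDomain (integralClosure Λ F) := integralClosure.isDedekindDomain Λ Q F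
  haveI : Module.IsTorsionFree Λ (integralClosure Λ F) :=
    IsIntegralClosure.isTorsionFree Λ F
  haveI : Module.Free Λ (integralClosure Λ F) :=
    IsIntegralClosure.module_free Λ Q F (integralClosure Λ F)
  haveI : Module.Finite Λ (integralClosure Λ F) :=
    IsIntegralClosure.finite Λ Q F (integralClosure Λ F)
  haveI : IsLocalization (Algebra.algebraMapSubmonoid (integralClosure Λ F) (nonZeroDivisors Λ))
      F := IsIntegralClosure.isLocalization Λ Q F (integralClosure Λ F)
  have hrank : Module.finrank Λ (integralClosure Λ F) = Fintype.card ι := by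
    rw [IsIntegralClosure.rank Λ Q F (integralClosure Λ F), Module.finrank_eq_card_basis b]
  -- an integral basis indexed by `ι`
  let β : Basis ι Λ (integralClosure Λ F) :=
    (Module.finBasisOfFinrankEq Λ (integralClosure Λ F) hrank).reindex
      (Fintype.equivFin ι).symm
  let βQ : Basis ι Q F := β.localizationLocalization Q (nonZeroDivisors Λ) F
  have hβQ : ∀ i, βQ i = (β i : F) := fun i =>
    Basis.localizationLocalization_apply Q (nonZeroDivisors Λ) F β i
  have hdiscβ : Algebra.discr Q βQ = algebraMap Λ Q (Algebra.discr Λ β) :=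
    Algebra.discr_localizationLocalization Λ (nonZeroDivisors Λ) F β
  -- the transition matrix `b = P β`
  let bC : ι → integralClosure Λ F := fun i => ⟨b i, hint i⟩
  let P : Matrix ι ι Λ := fun i j => β.repr (bC i) j
  have hbP : (b : ι → F) = (P.map (algebraMap Λ Q)).map (algebraMap Q F) *ᵥ (βQ : ι → F) := by
    funext i
    have h1 : bC i = ∑ j, P i j • β j := (β.sum_repr (bC i)).symm
    have h2 : (b i : F) = ∑ j, P i j • (β j : F) := by
      have := congrArg (fun x : integralClosure Λ F => (x : F)) h1
      simpa using this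
    rw [h2]
    simp only [Matrix.mulVec, dotProduct, Matrix.map_apply, hβQ]
    refine Finset.sum_congr rfl fun j _ => ?_
    rw [Algebra.smul_def, IsScalarTower.algebraMap_apply Λ Q F]
  have hdisc : Algebra.discr Q b = algebraMap Λ Q (P.det ^ 2 * Algebra.discr Λ β) := by
    have := Algebra.discr_of_matrix_mulVec (A := Q) (B := F) (βQ : ι → F) (P.map (algebraMap Λ Q))
    rw [← hbP] at this
    rw [this, hdiscβ, map_mul, map_pow]
    congr 2
    exact (RingHom.map_det (algebraMap Λ Q) P).symm
  have hdeq : d = P.det ^ 2 * Algebra.discr Λ β :=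
    IsFractionRing.injective Λ Q (hd.trans hdisc)
  -- the inverse transition, up to denominators prime to `t`
  have hR : ∀ j, ∃ g : Λ, ¬ t ∣ g ∧ ∃ R : ι → Λ, g • (β j : F) = ∑ i, R i • b i := by
    intro j
    obtain ⟨g, hg, hmem⟩ := hspan (β j : F) (β j).2
    refine ⟨g, hg, ?_⟩
    rw [Submodule.mem_span_range_iff_exists_fun] at hmem
    obtain ⟨R, hR⟩ := hmem
    exact ⟨R, hR.symm⟩
  choose g hg R hR using hR
  have hRP : (Matrix.of fun j i => R j i) * P = Matrix.diagonal g := by
    ext j k
    -- compare coordinates of `g j • β j` in the basis `β`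
    have h1 : g j • β j = ∑ i, R j i • bC i := by
      apply Subtype.ext
      have := hR j
      simpa using this
    have h2 := congrArg (fun x => β.repr x k) h1
    simp only [map_smul, map_sum, Finsupp.smul_apply, Finsupp.coe_finsetSum,
      Finset.sum_apply, Basis.repr_self, smul_eq_mul] at h2
    rw [Matrix.mul_apply, Matrix.diagonal_apply]
    simp only [Matrix.of_apply]
    rw [← h2]
    by_cases hjk : j = k
    · subst hjk
      simp
    · simp [hjk]
  have hdetP : ¬ t ∣ P.det := by
    intro h
    have hprod : t ∣ ∏ j, g j := by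
      have := congrArg Matrix.det hRP
      rw [Matrix.det_mul, Matrix.det_diagonal] at this
      rw [← this]
      exact Dvd.dvd.mul_left h _
    obtain ⟨j, -, hj⟩ := (Prime.dvd_finsetProd_iff ht _).mp hprod
    exact hg j hj
  intro hdvd
  rw [hdeq] at hdvd
  have hdetP2 : ¬ t ∣ P.det ^ 2 := fun h => hdetP (ht.dvd_of_dvd_pow h)
  have h3 : t ^ (Fintype.card ι - s.card + 1) ∣ Algebra.discr Λ β :=
    ht.pow_dvd_of_dvd_mul_left _ hdetP2 hdvd
  -- reindex `β` by `Fin n`
  let e := Fintype.equivFin ι
  have h4 : Algebra.discr Λ (β.reindex e) = Algebra.discr Λ β := by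
    have := Algebra.discr_reindex Λ β e
    rwa [← Basis.coe_reindex] at this
  rw [← h4] at h3
  exact not_pow_dvd_discr_of_maximal t ht (β.reindex e) s hs h3

/-- The number of maximal ideals of the integral closure over `t` is at most the degree. -/
theorem card_le_finrank_of_maximal (t : Λ) (ht : Prime t)
    (s : Finset (Ideal (integralClosure Λ F)))
    (hs : ∀ M ∈ s, M.IsMaximal ∧ algebraMap Λ (integralClosure Λ F) t ∈ M) :
    s.card ≤ Module.finrank Q F := by
  classical
  haveI : CharZero Λ := algebraRat.charZero Λ
  haveI : CharZero Q := (algebraMap Λ Q).charZero_iff (IsFractionRing.injective Λ Q) |>.mp ‹_›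
  haveI : Algebra.IsSeparable Q F := inferInstance
  haveI : FaithfulSMul Λ F := by
    rw [faithfulSMul_iff_algebraMap_injective, IsScalarTower.algebraMap_eq Λ Q F]
    exact (algebraMap Q F).injective.comp (IsFractionRing.injective Λ Q)
  haveI : Module.IsTorsionFree Λ F := inferInstance
  haveI : IsDedekindDomain (integralClosure Λ F) := integralClosure.isDedekindDomain Λ Q F
  haveI : Module.IsTorsionFree Λ (integralClosure Λ F) :=
    IsIntegralClosure.isTorsionFree Λ F
  haveI : Module.Free Λ (integralClosure Λ F) :=
    IsIntegralClosure.module_free Λ Q F (integralClosure Λ F)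
  haveI : Module.Finite Λ (integralClosure Λ F) :=
    IsIntegralClosure.finite Λ Q F (integralClosure Λ F)
  have hrank : Module.finrank Λ (integralClosure Λ F) = Module.finrank Q F :=
    IsIntegralClosure.rank Λ Q F (integralClosure Λ F)
  exact card_le_of_maximal t ht (Module.finBasisOfFinrankEq Λ (integralClosure Λ F) hrank) s hs

end LocalBasis

end Fermat.Agent.S37.H808
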