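import Fermat.Agent.S18.H274.Tame

/-!
# S37 / R-b MODEL, leaf M-b (helper808): tame discriminant bound, counting form

Mathlib + landed `S18/H274/Tame.lean` only.

`Λ` a PID containing `ℚ`, `t` a prime element, `C₀` a Dedekind domain, torsion-free over `Λ` with a
`Λ`-basis `β` of `n` elements.  If `s` is a finite set of maximal ideals of `C₀` containing `t`,
then `#s ≤ n` and `ord_t (disc β) ≤ n - #s`, i.e.

* `card_le_of_maximal` : `s.card ≤ n`;
* `not_pow_dvd_discr_of_maximal` : `¬ t ^ (n - s.card + 1) ∣ Algebra.discr Λ β`.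

(The CRT idempotents attached to the members of `s` are linearly independent modulo `rad (t C₀)`;
then apply `H274.tameDiscr`.)
-/

set_option autoImplicit false
set_option linter.overlappingInstances false
set_option linter.style.haveILetI false
set_option linter.unusedSectionVars false

noncomputable section

namespace Fermat.Agent.S37.H808

open Module

section Core

variable {Λ : Type*} [CommRing Λ] [IsDomain Λ] [IsPrincipalIdealRing Λ]
variable {C₀ : Type*} [CommRing C₀] [Algebra Λ C₀]

/-- A prime ideal of `C₀` containing the prime element `t` of the PID `Λ` meets `Λ` in `(t)`. -/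
theorem dvd_of_algebraMap_mem {t : Λ} (ht : Prime t) {M : Ideal C₀} (hM : M.IsPrime)
    (htM : algebraMap Λ C₀ t ∈ M) {a : Λ} (ha : algebraMap Λ C₀ a ∈ M) : t ∣ a := by
  have hmax : (Ideal.span {t}).IsMaximal :=
    PrincipalIdealRing.isMaximal_of_irreducible ht.irreducible
  have hle : Ideal.span {t} ≤ M.comap (algebraMap Λ C₀) := by
    rw [Ideal.span_le, Set.singleton_subset_iff]
    exact htM
  have hne : M.comap (algebraMap Λ C₀) ≠ ⊤ := (Ideal.IsPrime.comap (algebraMap Λ C₀)).ne_top
  have heq : Ideal.span {t} = M.comap (algebraMap Λ C₀) := hmax.eq_of_le hne hle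
  have : a ∈ Ideal.span {t} := by
    rw [heq]
    exact ha
  exact Ideal.mem_span_singleton.mp this

/-- CRT idempotents attached to a finite set of maximal ideals containing `t`: a family which is
linearly independent modulo `rad (t C₀)`. -/
theorem exists_family_of_maximal (t : Λ) (ht : Prime t) (s : Finset (Ideal C₀))
    (hs : ∀ M ∈ s, M.IsMaximal ∧ algebraMap Λ C₀ t ∈ M) :
    ∃ y : Fin s.card → C₀, ∀ a : Fin s.card → Λ,
      (∑ i, a i • y i) ∈ (Ideal.span {algebraMap Λ C₀ t}).radical → ∀ i, t ∣ a i := by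
  classical
  set r := s.card with hr
  let e : Fin r ≃ s := s.equivFin.symm
  let I : Fin r → Ideal C₀ := fun i => (e i : Ideal C₀)
  have hImax : ∀ i, (I i).IsMaximal := fun i => (hs _ (e i).2).1
  have hIt : ∀ i, algebraMap Λ C₀ t ∈ I i := fun i => (hs _ (e i).2).2
  have hIinj : Function.Injective I := fun i j h => e.injective (Subtype.ext h)
  have hcop : Pairwise (Function.onFun IsCoprime I) := by
    intro i j hij
    haveI := hImax i
    haveI := hImax j
    exact Ideal.isCoprime_of_isMaximal (fun h => hij (hIinj h))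
  -- CRT idempotents
  have hy : ∀ i : Fin r, ∃ y : C₀, ∀ j, y - (if j = i then 1 else 0) ∈ I j := fun i =>
    Ideal.exists_forall_sub_mem_ideal hcop (fun j => if j = i then 1 else 0)
  choose y hy using hy
  refine ⟨y, ?_⟩
  intro a ha i₀
  have hrad : (Ideal.span {algebraMap Λ C₀ t}).radical ≤ I i₀ := by
    refine (Ideal.IsPrime.radical_le_iff (hImax i₀).isPrime).mpr ?_
    rw [Ideal.span_le, Set.singleton_subset_iff]
    exact hIt i₀
  have hsum : (∑ i, a i • y i) ∈ I i₀ := hrad ha
  -- all terms but `i₀` lie in `I i₀`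
  have hother : ∀ i, i ≠ i₀ → a i • y i ∈ I i₀ := by
    intro i hi
    have h := hy i i₀
    rw [if_neg (fun h => hi h.symm), sub_zero] at h
    rw [Algebra.smul_def]
    exact Ideal.mul_mem_left _ _ h
  have hmain : a i₀ • y i₀ ∈ I i₀ := by
    have hsplit : (∑ i, a i • y i) = a i₀ • y i₀ + ∑ i ∈ Finset.univ.erase i₀, a i • y i :=
      (Finset.add_sum_erase Finset.univ (fun i => a i • y i) (Finset.mem_univ i₀)).symm
    rw [hsplit] at hsum
    have hrest : (∑ i ∈ Finset.univ.erase i₀, a i • y i) ∈ I i₀ :=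
      Ideal.sum_mem _ fun i hi => hother i (Finset.ne_of_mem_erase hi)
    exact (Ideal.add_mem_iff_left _ hrest).mp hsum
  have hy1 : y i₀ ∉ I i₀ := by
    intro h
    have h1 := hy i₀ i₀
    rw [if_pos rfl] at h1
    have : (1 : C₀) ∈ I i₀ := by
      have := (I i₀).sub_mem h h1
      simpa using this
    exact (hImax i₀).ne_top ((Ideal.eq_top_iff_one _).mpr this)
  rw [Algebra.smul_def] at hmain
  have ha₀ : algebraMap Λ C₀ (a i₀) ∈ I i₀ :=
    ((hImax i₀).isPrime.mem_or_mem hmain).resolve_right hy1
  exact dvd_of_algebraMap_mem ht (hImax i₀).isPrime (hIt i₀) ha₀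

/-- A family which is linearly independent modulo `rad (t C₀)` is linearly independent. -/
theorem linearIndependent_of_radical [IsDomain C₀] [Module.IsTorsionFree Λ C₀]
    (t : Λ) (ht : Prime t) {r : ℕ} (y : Fin r → C₀)
    (hy : ∀ a : Fin r → Λ,
      (∑ i, a i • y i) ∈ (Ideal.span {algebraMap Λ C₀ t}).radical → ∀ i, t ∣ a i) :
    LinearIndependent Λ y := by
  classical
  have key : ∀ k : ℕ, ∀ a : Fin r → Λ, (∑ i, a i • y i) = 0 → ∀ i, t ^ k ∣ a i := by
    intro k
    induction k with
    | zero => intro a _ i; simp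
    | succ k ih =>
      intro a ha i
      have h1 : ∀ i, t ∣ a i := hy a (by rw [ha]; exact Ideal.zero_mem _)
      choose a' ha' using h1
      have h2 : (∑ i, a' i • y i) = 0 := by
        have h3 : t • (∑ i, a' i • y i) = 0 := by
          rw [Finset.smul_sum, ← ha]
          refine Finset.sum_congr rfl fun i _ => ?_
          rw [smul_smul, ← ha' i]
        exact (smul_eq_zero.mp h3).resolve_left ht.ne_zero
      have h4 := ih a' h2 i
      rw [ha' i, pow_succ']
      exact mul_dvd_mul_left t h4
  rw [Fintype.linearIndependent_iff]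
  intro a ha i
  by_contra h0
  obtain ⟨n, hn⟩ := FiniteMultiplicity.of_not_isUnit ht.not_isUnit h0
  exact hn (key (n + 1) a ha i)

variable [Algebra ℚ Λ] [IsDomain C₀] [IsDedekindDomain C₀] [Module.IsTorsionFree Λ C₀]

omit [Algebra ℚ Λ] [IsDedekindDomain C₀] in
/-- The number of maximal ideals over `t` is at most the rank. -/
theorem card_le_of_maximal (t : Λ) (ht : Prime t) {n : ℕ} (β : Basis (Fin n) Λ C₀)
    (s : Finset (Ideal C₀)) (hs : ∀ M ∈ s, M.IsMaximal ∧ algebraMap Λ C₀ t ∈ M) :
    s.card ≤ n := by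
  obtain ⟨y, hy⟩ := exists_family_of_maximal t ht s hs
  have hli := linearIndependent_of_radical t ht y hy
  haveI : Module.Finite Λ C₀ := Module.Finite.of_basis β
  have h := hli.fintype_card_le_finrank
  rwa [Fintype.card_fin, Module.finrank_eq_card_basis β, Fintype.card_fin] at h

/-- **Tame discriminant bound, counting form.** -/
theorem not_pow_dvd_discr_of_maximal (t : Λ) (ht : Prime t) {n : ℕ} (β : Basis (Fin n) Λ C₀)
    (s : Finset (Ideal C₀)) (hs : ∀ M ∈ s, M.IsMaximal ∧ algebraMap Λ C₀ t ∈ M) :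
    ¬ t ^ (n - s.card + 1) ∣ Algebra.discr Λ β := by
  obtain ⟨y, hy⟩ := exists_family_of_maximal t ht s hs
  exact Fermat.Agent.S18.H274.tameDiscr Λ t ht C₀ n β s.card y hy

end Core

end Fermat.Agent.S37.H808
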