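import Fermat.Agent.S37.H808.TamePlaces
import Fermat.Agent.S18.H144.ConstF

/-!
# S37 / R-b MODEL, leaf M-b (helper808): tame discriminant bound for `ℚ̄(X₀(N))`

Instances of `H808.rootMultiplicity_discr_add_card_le` for `F = modularFunctionFieldBar N`:

* `isCoord_jF`, `isCoord_jF_inv` : `j` and `1/j` are coordinates of `ℚ̄(X₀(N))`;
* `tame_discr_fin` : finite chart, `x = j`, any `c : ℚ̄`;
* `tame_discr_inf` : chart at infinity, `x = 1/j`, `c = 0` (the cusps).
-/

set_option autoImplicit false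
set_option linter.overlappingInstances false
set_option linter.style.haveILetI false
set_option linter.unusedSectionVars false

noncomputable section

namespace Fermat.Agent.S37.H808

open AlgebraicCurve Polynomial IntermediateField ModularCurve
open Fermat.Agent.S24 Fermat.Agent.S24.FF

open scoped IntermediateField.algebraAdjoinAdjoin

/-- `j` is a coordinate of `ℚ̄(X₀(N))`. -/
theorem isCoord_jF (N : ℕ) [NeZero N] : IsCoord Kbar (jF N) :=
  ⟨Fermat.Agent.S18.H144.transcendental_jF N, (nonempty_modularPackage N).some.finiteDimensional⟩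

/-- `1/j` is a coordinate of `ℚ̄(X₀(N))`. -/
theorem isCoord_jF_inv (N : ℕ) [NeZero N] : IsCoord Kbar (jF N)⁻¹ := by
  haveI := isCoord_jF N
  refine IsCoord.of_transcendental (x := jF N) ?_
  intro h
  exact Fermat.Agent.S18.H144.transcendental_jF N (by simpa using h.inv)

/-- **Tame discriminant bound, finite chart of `X₀(N)`**: for a local integral basis `b` at
`j = c` with discriminant `D(j)`, and any finite set `s` of places over `j = c`,
`ord_{X = c} D + #s ≤ [F : ℚ̄(j)]`. -/
theorem tame_discr_fin (N : ℕ) [NeZero N] (c : Kbar) {ι : Type*} [Fintype ι] [DecidableEq ι]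
    (b : Module.Basis ι Kbar⟮jF N⟯ (FF N))
    (hint : ∀ i, IsIntegral (coordRing Kbar (jF N)) (b i))
    (hspan : ∀ f : FF N, IsIntegral (coordRing Kbar (jF N)) f → ∃ g : Kbar[X], g.eval c ≠ 0 ∧
      aeval (jF N) g * f ∈ Submodule.span (coordRing Kbar (jF N)) (Set.range b))
    (D : Kbar[X]) (hD : aeval (jF N) D = ((Algebra.discr Kbar⟮jF N⟯ b : Kbar⟮jF N⟯) : FF N))
    (s : Finset (Place Kbar (FF N)))
    (hs : ∀ v ∈ s, 0 < v.ord (jF N - algebraMap Kbar (FF N) c)) :
    D.rootMultiplicity c + s.card ≤ Fintype.card ι := by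
  haveI := isCoord_jF N
  exact rootMultiplicity_discr_add_card_le c b hint hspan D hD s hs

/-- **Tame discriminant bound, chart at infinity of `X₀(N)`**: the same with the coordinate
`1/j` at the value `0` (places over the cusps). -/
theorem tame_discr_inf (N : ℕ) [NeZero N] {ι : Type*} [Fintype ι] [DecidableEq ι]
    (b : Module.Basis ι Kbar⟮(jF N)⁻¹⟯ (FF N))
    (hint : ∀ i, IsIntegral (coordRing Kbar (jF N)⁻¹) (b i))
    (hspan : ∀ f : FF N, IsIntegral (coordRing Kbar (jF N)⁻¹) f → ∃ g : Kbar[X], g.eval 0 ≠ 0 ∧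
      aeval (jF N)⁻¹ g * f ∈ Submodule.span (coordRing Kbar (jF N)⁻¹) (Set.range b))
    (D : Kbar[X])
    (hD : aeval (jF N)⁻¹ D = ((Algebra.discr Kbar⟮(jF N)⁻¹⟯ b : Kbar⟮(jF N)⁻¹⟯) : FF N))
    (s : Finset (Place Kbar (FF N))) (hs : ∀ v ∈ s, 0 < v.ord (jF N)⁻¹) :
    D.rootMultiplicity 0 + s.card ≤ Fintype.card ι := by
  haveI := isCoord_jF_inv N
  refine rootMultiplicity_discr_add_card_le (0 : Kbar) b hint hspan D hD s ?_
  intro v hv
  rw [map_zero, sub_zero]
  exact hs v hv

end Fermat.Agent.S37.H808
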