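import Fermat.Agent.S37.H808.TameBasis
import Fermat.Agent.S24.FFIdentity
import Fermat.Agent.Lib.FF.PrimePlace

/-!
# S37 / R-b MODEL, leaf M-b (helper808): the tame discriminant bound in Prelude `Place` language

`K` a field of characteristic `0`, `F / K` a function field (Prelude `Place K F`), `x : F` a
coordinate (`S24.FF.IsCoord K x`: `x` transcendental, `F` finite over `K(x)`), `c : K`.

Let `b` be a `K(x)`-basis of `F` consisting of elements integral over `K[x]` which is a *local
integral basis at `x = c`*: every `f` integral over `K[x]` has `g(x) f ∈ span_{K[x]} b` for some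
polynomial `g` with `g(c) ≠ 0`.  Let `D ∈ K[X]` be the discriminant of `b`
(`D(x) = det (Tr_{F/K(x)} (b i * b j))`).  Then for every finite set `s` of places of `F` lying over
`x = c`

* `rootMultiplicity_discr_add_card_le` : `ord_{X = c} D + #s ≤ [F : K(x)]`.

In words: `ord_c (disc) ≤ n - r_c`, `r_c` the number of places over `c` (characteristic `0`, so
the ramification is tame).  In particular `D(c) ≠ 0` as soon as there are `n` places over `c`.
-/

set_option autoImplicit false
set_option linter.overlappingInstances false
set_option linter.style.haveILetI false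
set_option linter.unusedSectionVars false

noncomputable section

namespace Fermat.Agent.S37.H808

open AlgebraicCurve Polynomial IntermediateField IsDedekindDomain
open Fermat.Agent.S24.FF

open scoped IntermediateField.algebraAdjoinAdjoin

variable {K F : Type*} [Field K] [CharZero K] [Field F] [Algebra K F] {x : F} [IsCoord K x]

variable (K x) in
/-- `x - c` as an element of `K[x]`. -/
def xSub (c : K) : coordRing K x :=
  algEquivOfTranscendental K x (IsCoord.transcendental (K := K) (t := x)) (X - C c)

omit [CharZero K] in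
theorem coe_algEquiv (g : K[X]) :
    ((algEquivOfTranscendental K x (IsCoord.transcendental (K := K) (t := x)) g :
      coordRing K x) : F) = aeval x g := by
  rw [algEquivOfTranscendental_apply]
  exact (Polynomial.aeval_algHom_apply (coordRing K x).val _ g).symm

omit [CharZero K] in
@[simp] theorem coe_xSub (c : K) : ((xSub K x c : coordRing K x) : F) = x - algebraMap K F c := by
  rw [xSub, coe_algEquiv]
  simp

omit [CharZero K] in
theorem prime_xSub (c : K) : Prime (xSub K x c) :=
  (MulEquiv.prime_iff
    (algEquivOfTranscendental K x (IsCoord.transcendental (K := K) (t := x)))).mpr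
    (Polynomial.prime_X_sub_C c)

omit [CharZero K] in
theorem xSub_dvd_iff (c : K) (m : ℕ) (g : K[X]) :
    xSub K x c ^ m ∣
        algEquivOfTranscendental K x (IsCoord.transcendental (K := K) (t := x)) g ↔
      (X - C c) ^ m ∣ g := by
  rw [xSub, ← map_pow]
  exact map_dvd_iff (algEquivOfTranscendental K x (IsCoord.transcendental (K := K) (t := x)))

/-- `x` is integral at a place over `x = c`. -/
theorem ord_nonneg_of_ord_sub_pos {c : K} {v : Place K F}
    (hv : 0 < v.ord (x - algebraMap K F c)) : 0 ≤ v.ord x := by
  apply ord_nonneg_of_mem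
  have h1 : x - algebraMap K F c ∈ v.toValuationSubring := mem_of_ord_nonneg v hv.le
  have h2 : algebraMap K F c ∈ v.toValuationSubring := v.algebraMap_mem' c
  have := add_mem h1 h2
  simpa using this

theorem algebraMap_mem_of_ord_nonneg {v : Place K F} (hv : 0 ≤ v.ord x) (s : intRing K x) :
    algebraMap (intRing K x) F s ∈ v.toValuationSubring :=
  mem_of_mem_intRing v hv s.2

/-- The center on the integral closure of `K[x]` of a place (junk value `⊤` if `x` has a pole). -/
def cen (v : Place K F) : Ideal (intRing K x) := by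
  classical
  exact if h : 0 ≤ v.ord x then
    Fermat.Agent.Lib.FF.center v (algebraMap_mem_of_ord_nonneg h) else ⊤

theorem cen_eq {v : Place K F} (h : 0 ≤ v.ord x) :
    (cen v : Ideal (intRing K x)) =
      Fermat.Agent.Lib.FF.center v (algebraMap_mem_of_ord_nonneg h) := by
  unfold cen
  rw [dif_pos h]

theorem xSub_mem_cen {c : K} {v : Place K F} (hv : 0 < v.ord (x - algebraMap K F c)) :
    algebraMap (coordRing K x) (intRing K x) (xSub K x c) ∈ (cen v : Ideal (intRing K x)) := by
  rw [cen_eq (ord_nonneg_of_ord_sub_pos hv), Fermat.Agent.Lib.FF.mem_center_iff]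
  have hne : x - algebraMap K F c ≠ 0 := by
    rintro h
    rw [h] at hv
    simp at hv
  have : algebraMap (intRing K x) F (algebraMap (coordRing K x) (intRing K x) (xSub K x c)) =
      x - algebraMap K F c := coe_xSub c
  rw [this]
  exact (ord_pos_iff_mem_nonunits v hne).mp hv

theorem cen_ne_bot {c : K} {v : Place K F} (hv : 0 < v.ord (x - algebraMap K F c)) :
    (cen v : Ideal (intRing K x)) ≠ ⊥ := by
  intro h
  have hmem := xSub_mem_cen hv
  rw [h, Ideal.mem_bot] at hmem
  have h0 : xSub K x c = 0 :=
    (FaithfulSMul.algebraMap_injective (coordRing K x) (intRing K x)) (by rw [hmem, map_zero])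
  exact (prime_xSub (K := K) (x := x) c).ne_zero h0

theorem cen_isMaximal {c : K} {v : Place K F} (hv : 0 < v.ord (x - algebraMap K F c)) :
    (cen v : Ideal (intRing K x)).IsMaximal := by
  have hprime : (cen v : Ideal (intRing K x)).IsPrime := by
    rw [cen_eq (ord_nonneg_of_ord_sub_pos hv)]
    infer_instance
  exact hprime.isMaximal (cen_ne_bot hv)

/-- Distinct places over `x = c` have distinct centers. -/
theorem cen_injOn (c : K) :
    Set.InjOn (cen : Place K F → Ideal (intRing K x))
      {v | 0 < v.ord (x - algebraMap K F c)} := by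
  intro v hv v' hv' h
  have hv0 := ord_nonneg_of_ord_sub_pos hv
  have hv0' := ord_nonneg_of_ord_sub_pos hv'
  have hne : Fermat.Agent.Lib.FF.center v (algebraMap_mem_of_ord_nonneg hv0) ≠ ⊥ := by
    rw [← cen_eq hv0]; exact cen_ne_bot hv
  have hne' : Fermat.Agent.Lib.FF.center v' (algebraMap_mem_of_ord_nonneg hv0') ≠ ⊥ := by
    rw [← cen_eq hv0']; exact cen_ne_bot hv'
  have h1 := Fermat.Agent.Lib.FF.placeOf_center v (algebraMap_mem_of_ord_nonneg hv0) hne
  have h2 := Fermat.Agent.Lib.FF.placeOf_center v' (algebraMap_mem_of_ord_nonneg hv0') hne'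
  rw [← h1, ← h2]
  congr 1
  apply HeightOneSpectrum.ext
  show Fermat.Agent.Lib.FF.center v _ = Fermat.Agent.Lib.FF.center v' _
  rw [← cen_eq hv0, ← cen_eq hv0']
  exact h

/-- **Tame discriminant bound, Prelude `Place` form** (leaf M-b of R-b MODEL). -/
theorem rootMultiplicity_discr_add_card_le
    (c : K) {ι : Type*} [Fintype ι] [DecidableEq ι] (b : Module.Basis ι K⟮x⟯ F)
    (hint : ∀ i, IsIntegral (coordRing K x) (b i))
    (hspan : ∀ f : F, IsIntegral (coordRing K x) f → ∃ g : K[X], g.eval c ≠ 0 ∧
      aeval x g * f ∈ Submodule.span (coordRing K x) (Set.range b))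
    (D : K[X]) (hD : aeval x D = ((Algebra.discr K⟮x⟯ b : K⟮x⟯) : F))
    (s : Finset (Place K F)) (hs : ∀ v ∈ s, 0 < v.ord (x - algebraMap K F c)) :
    D.rootMultiplicity c + s.card ≤ Fintype.card ι := by
  classical
  letI : Algebra ℚ (coordRing K x) :=
    ((algebraMap K (coordRing K x)).comp (algebraMap ℚ K)).toAlgebra
  set e := algEquivOfTranscendental K x (IsCoord.transcendental (K := K) (t := x)) with he
  set t := xSub K x c with ht
  have htp : Prime t := prime_xSub c
  -- the centers
  set s' : Finset (Ideal (intRing K x)) := s.image cen with hs'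
  have hcard : s'.card = s.card :=
    Finset.card_image_of_injOn fun v hv v' hv' h =>
      cen_injOn c (hs v (Finset.mem_coe.mp hv)) (hs v' (Finset.mem_coe.mp hv')) h
  have hs'max : ∀ M ∈ s', M.IsMaximal ∧
      algebraMap (coordRing K x) (integralClosure (coordRing K x) F) t ∈ M := by
    intro M hM
    obtain ⟨v, hv, rfl⟩ := Finset.mem_image.mp hM
    exact ⟨cen_isMaximal (hs v hv), xSub_mem_cen (hs v hv)⟩
  -- the local spanning hypothesis
  have hspan' : ∀ f : F, IsIntegral (coordRing K x) f →
      ∃ g : coordRing K x, ¬ t ∣ g ∧ g • f ∈ Submodule.span (coordRing K x) (Set.range b) := by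
    intro f hf
    obtain ⟨g, hg, hmem⟩ := hspan f hf
    refine ⟨e g, ?_, ?_⟩
    · intro hdvd
      have h0 : xSub K x c ^ 1 ∣
          algEquivOfTranscendental K x (IsCoord.transcendental (K := K) (t := x)) g := by
        rw [pow_one]
        exact hdvd
      have h1 : (X - C c) ^ 1 ∣ g := (xSub_dvd_iff c 1 g).mp h0
      rw [pow_one, Polynomial.dvd_iff_isRoot] at h1
      exact hg h1
    · have : e g • f = aeval x g * f := by
        rw [Algebra.smul_def]
        congr 1
        exact coe_algEquiv g
      rw [this]
      exact hmem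
  -- the discriminant
  have hd : algebraMap (coordRing K x) K⟮x⟯ (e D) = Algebra.discr K⟮x⟯ b := by
    apply Subtype.ext
    rw [← hD]
    exact coe_algEquiv D
  have hle : s'.card ≤ Module.finrank K⟮x⟯ F :=
    card_le_finrank_of_maximal (Λ := coordRing K x) (Q := K⟮x⟯) (F := F) t htp s' hs'max
  have hnot := not_pow_dvd_of_discr_eq (Λ := coordRing K x) (Q := K⟮x⟯) (F := F) t htp b hint
    hspan' (e D) hd s' hs'max
  rw [hcard] at hle hnot
  rw [Module.finrank_eq_card_basis b] at hle
  rw [xSub_dvd_iff] at hnot
  by_cases hD0 : D = 0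
  · rw [hD0, Polynomial.rootMultiplicity_zero, zero_add]
    exact hle
  · have hlt : ¬ (Fintype.card ι - s.card + 1) ≤ D.rootMultiplicity c := fun h =>
      hnot ((Polynomial.le_rootMultiplicity_iff hD0).mp h)
    omega

end Fermat.Agent.S37.H808
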